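import Mathlib
import Fermat.Agent.LT.T7.DQ773.DatQSpec
import Fermat.Agent.LT.T7.B981.H619.DownFinClosed
import Fermat.Agent.LT.T7.H644.UnramQ
import Fermat.Agent.LT.T7.H298.MatchQGlue

/-!
# Row LT, tower T7, node T7.L2Q.1.H2a.A.0.D.3 `DQ773.DownFinQC773` (registry row 3177, owner
# helper131)

OFF-MAIN.  Complete proofs, nothing assumed.

    downFinQC_h131 (F) : DQ773.DownFinQC773 F          (VERBATIM, UNCONDITIONAL)

PORT over `ℚ` (`K = ℚ`, `K' = F`, `ℓ = 2`) of the top `B981.DF619.downFinC_of619` of helper619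
(cubic twin, registry row 2981), with the closed leaf `DF619.PushCalcC619 ℚ F` of helper717
(`H717.pushCalcC717`, every extension of number fields).  `A v = pushFin981 P' A' v`,
`f₀ v = 1_{U(m v)}` at `v ∈ T₀` and a Satake pair for `A v` elsewhere
(`T3.H263.satakeLocC263 ℚ`).  `P ∩ T₀ = ∅`: the hypothesis `P` prime to `𝔫` and
`IsLevFnQ57.div`.  A place `w` over `v ∈ P` is outside `S'` (`IsLevQ57.mem_S'_g`: otherwise
`𝔫 𝒪_F ⊆ w`, so `𝔫 ⊆ v`), hence unramified (`CQ57.UnramQC57`, closed: helper644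
`H644.unramQC644`), and `H963.placesC963 ℚ F 2` (`MQ298.isCycExt_of_imagQuad298`) gives the
residue degrees: `2` at an inert place, `1` at a split place.  Bridge T3 → T6:
`DF619.bridge619` (one field).
-/

set_option autoImplicit false
set_option linter.unusedSectionVars false
set_option linter.unusedVariables false

open IsDedekindDomain NumberField
open scoped Classical

noncomputable section

namespace Fermat.Agent.LT.T7.H131

open Fermat.Agent.LT Fermat.Agent.LT.T7 Fermat.Agent.LT.T7.B981 Fermat.Agent.LT.T7.H893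
open Fermat.Agent.LT.T7.B981.SS503 Fermat.Agent.LT.T7.B981.DF619
open Fermat.Agent.LT.T7.L2Q Fermat.Agent.LT.T7.H962 Fermat.Agent.LT.T7.H732

/-- A place of `F` over a place of `ℚ` prime to the level `𝔫` is outside `S'`. -/
theorem notMem_S'_of_prime_h131 {F : Type} [Field F] [NumberField F]
    {B : L2QBase962 F} {𝔫 : Ideal (𝓞 ℚ)} (hL : CQ57.IsLevQ57 B 𝔫)
    {v : HeightOneSpectrum (𝓞 ℚ)} {w : HeightOneSpectrum (𝓞 F)} (hvw : PlaceOver ℚ F v w)
    (hv : ¬ v.asIdeal ∣ 𝔫) : w ∉ B.S' := by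
  intro hw
  apply hv
  have hdvd := (hL.mem_S'_g w).1 hw
  have hle : upI (K' := F) 𝔫 ≤ w.asIdeal := Ideal.le_of_dvd hdvd
  refine Ideal.dvd_iff_le.2 (fun a ha => ?_)
  exact (hvw a (algebraMap (𝓞 ℚ) (𝓞 F) a) rfl).2 (hle (Ideal.mem_map_of_mem _ ha))

/-- **NODE DQ.3 `DownFinQC773`, CLOSED.** -/
theorem downFinQC_h131 (F : Type) [Field F] [NumberField F] : DQ773.DownFinQC773 F := by
  intro h3 hquad Φ B hB hRam 𝔫 hL T₀ n n₀ m hE P' P hP'S hP hPn A' φ₀ hA' hpair hunit
  have hcyc : IsCycExt ℚ F 2 := MQ298.isCycExt_of_imagQuad298 hquad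
  have hunr := H644.unramQC644 F h3 hquad Φ B hB hRam
  -- the push-forward
  have hpc := fun v : HeightOneSpectrum (𝓞 ℚ) =>
    H717.pushCalcC717 ℚ F P' A' v (fun w _ => hA' w)
  -- a Satake pair for the push-forward
  have hsat : ∀ v : HeightOneSpectrum (𝓞 ℚ), ∃ f : GL (Fin 2) (v.adicCompletion ℚ) → ℂ,
      T3.AS.IsSatakePair v f (pushFin981 (K := ℚ) P' A' v) :=
    fun v => T3.H263.satakeLocC263 ℚ v _ (hpc v).1
  choose g hg using hsat
  -- `P` and `T₀` are disjoint
  have hdisj : ∀ v ∈ P, v ∉ T₀ := fun v hv hvT => hPn v hv ((hE.div v).1 hvT)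
  -- the bridge upstairs
  have hup : ∀ w ∈ P', ∃ A : (ℤ × ℤ) →₀ ℂ, IsSphFn893 (φ₀ w) A ∧
      ∀ x y : ℂ, x ≠ 0 → y ≠ 0 →
        satT893 (Ideal.absNorm w.asIdeal) A x y = T3.AS.laurent (A' w) x y :=
    fun w hw => bridge619 w (φ₀ w) (A' w) (hA' w) (hpair w hw)
  refine ⟨fun v => pushFin981 (K := ℚ) P' A' v,
    fun v => if v ∈ T₀ then unitFn893 (m v) else g v, fun v => (hpc v).1, fun v _ => rfl,
    ?_, ?_, ?_⟩
  · intro v hv
    show T3.AS.IsSatakePair v (if v ∈ T₀ then unitFn893 (m v) else g v) _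
    rw [if_neg (hdisj v hv)]
    exact hg v
  · intro v hv
    show (if v ∈ T₀ then unitFn893 (m v) else g v) = _
    rw [if_pos hv]
  · intro v hv hvT₀
    have hvP : v ∈ P := by
      rcases Finset.mem_union.1 hv with h | h
      · exact absurd h hvT₀
      · exact h
    -- the places over `v`
    have key : ∀ w : HeightOneSpectrum (𝓞 F), PlaceOver ℚ F v w →
        ∃ f : ℕ, HasResDeg ℚ F v w f ∧
          ((∀ w' : HeightOneSpectrum (𝓞 F), PlaceOver ℚ F v w' → w' = w) → f = 2) ∧
          ∀ u : ℕ → HeightOneSpectrum (𝓞 F), (∀ j : ℕ, PlaceOver ℚ F v (u j)) →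
            (∀ j j' : ℕ, j < 2 → j' < 2 → u j = u j' → j = j') →
            f = 1 ∧ ∃ j : ℕ, j < 2 ∧ u j = w := by
      intro w how
      have hwS : w ∉ (toBase962_732 B).S' := notMem_S'_of_prime_h131 hL how (hPn v hvP)
      obtain ⟨v', f, -, hres, huniq, -, hun⟩ := H963.placesC963 ℚ F 2 hcyc w
      have hv' : v = v' := huniq v how
      subst hv'
      obtain ⟨h1, h2⟩ := hun (hunr v w how hwS)
      exact ⟨f, hres, h1, h2⟩
    let Aup : HeightOneSpectrum (𝓞 F) → (ℤ × ℤ) →₀ ℂ := fun w =>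
      if hw : w ∈ P' then (hup w hw).choose else Finsupp.single ((0 : ℤ), (0 : ℤ)) (1 : ℂ)
    have hAup_pos : ∀ w (hw : w ∈ P'), Aup w = (hup w hw).choose := fun w hw => dif_pos hw
    have hAup_neg : ∀ w, w ∉ P' → Aup w = Finsupp.single ((0 : ℤ), (0 : ℤ)) (1 : ℂ) :=
      fun w hw => dif_neg hw
    obtain ⟨Av, hAv, hAvs⟩ := bridge619 v (g v) _ (hpc v).1 (hg v)
    refine ⟨Aup, Av, ?_, ?_, ?_, ?_⟩
    · show IsSphFn893 (if v ∈ T₀ then unitFn893 (m v) else g v) Av
      rw [if_neg hvT₀]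
      exact hAv
    · intro w how
      by_cases hw : w ∈ P'
      · rw [hAup_pos w hw]
        exact (hup w hw).choose_spec.1
      · rw [hAup_neg w hw, hunit w hw ⟨v, hvP, how⟩]
        exact H619.unitSphC619 _
    · -- the inert clause
      intro w how honly x y hx hy
      obtain ⟨w₀, hw₀, hov⟩ := (hP v).1 hvP
      have hw₀w : w₀ = w := honly w₀ hov
      subst hw₀w
      obtain ⟨f, hres, hf, -⟩ := key w₀ how
      have hfl : f = 2 := hf honly
      have hfib : fib981 (K := ℚ) P' v = {w₀} := by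
        ext w'
        rw [mem_fib619, Finset.mem_singleton]
        constructor
        · rintro ⟨-, h⟩
          exact honly w' h
        · rintro rfl
          exact ⟨hw₀, how⟩
      have e1 := hAvs x y hx hy
      have e2 := (hpc v).2 x y hx hy
      rw [hfib, Finset.prod_singleton, resDeg_eq619 v w₀ f hres] at e2
      have e3 : satT893 (Ideal.absNorm w₀.asIdeal) (Aup w₀) (x ^ f) (y ^ f)
          = T3.AS.laurent (A' w₀) (x ^ f) (y ^ f) := by
        rw [hAup_pos w₀ hw₀]
        exact (hup w₀ hw₀).choose_spec.2 (x ^ f) (y ^ f) (pow_ne_zero _ hx) (pow_ne_zero _ hy)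
      rw [hres.2, hfl] at e3
      rw [hfl] at e2
      show satT893 (Ideal.absNorm v.asIdeal) Av x y
        = satT893 (Ideal.absNorm v.asIdeal ^ 2) (Aup w₀) (x ^ 2) (y ^ 2)
      rw [e1, e2, e3]
    · -- the split clause
      intro u hu hinj x y hx hy
      have hfib : fib981 (K := ℚ) P' v
          = ((Finset.range 2).filter (fun j => u j ∈ P')).image u := by
        ext w
        rw [mem_fib619, Finset.mem_image]
        constructor
        · rintro ⟨hwP', how⟩
          obtain ⟨f, -, -, h3⟩ := key w how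
          obtain ⟨-, j, hj, rfl⟩ := h3 u hu hinj
          exact ⟨j, Finset.mem_filter.2 ⟨Finset.mem_range.2 hj, hwP'⟩, rfl⟩
        · rintro ⟨j, hj, rfl⟩
          exact ⟨(Finset.mem_filter.1 hj).2, hu j⟩
      have hinj' : ∀ j ∈ (Finset.range 2).filter (fun j => u j ∈ P'),
          ∀ j' ∈ (Finset.range 2).filter (fun j => u j ∈ P'), u j = u j' → j = j' := by
        intro j hj j' hj' h
        exact hinj j j' (Finset.mem_range.1 (Finset.mem_filter.1 hj).1)
          (Finset.mem_range.1 (Finset.mem_filter.1 hj').1) h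
      rw [hAvs x y hx hy, (hpc v).2 x y hx hy, hfib, Finset.prod_image hinj',
        Finset.prod_filter]
      refine Finset.prod_congr rfl fun j hj => ?_
      obtain ⟨f, hres, -, h3⟩ := key (u j) (hu j)
      obtain ⟨hf1, -⟩ := h3 u hu hinj
      subst hf1
      by_cases hjP : u j ∈ P'
      · rw [if_pos hjP, resDeg_eq619 v (u j) 1 hres, pow_one, pow_one]
        have e3 : satT893 (Ideal.absNorm (u j).asIdeal) (Aup (u j)) x y
            = T3.AS.laurent (A' (u j)) x y := by
          rw [hAup_pos (u j) hjP]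
          exact (hup (u j) hjP).choose_spec.2 x y hx hy
        rw [hres.2, pow_one] at e3
        exact e3.symm
      · rw [if_neg hjP, hAup_neg (u j) hjP, satT_unit619]

end Fermat.Agent.LT.T7.H131

/-- Verbatim check. -/
example (F : Type) [Field F] [NumberField F] : Fermat.Agent.LT.T7.DQ773.DownFinQC773 F :=
  Fermat.Agent.LT.T7.H131.downFinQC_h131 F

end
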