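import Mathlib
import Fermat.Agent.LT.T7.H893.SupplyFamSpec
import Fermat.Agent.LT.T5.H277.Coeff

/-
LT tower T7, nodes T7.L2.1.F / T7.L2Q.1.F: GENERAL LEMMAS on the operators of left translates
(one field) -- helper131, OFF-MAIN.

`rcRegL_h131 : R(regL w z H k m phi) psi = shiftOp z k ((iwOp w H)^[m] (R(phi) psi))`,
`rcLsum_h131 : R(lsum H phi) psi = cosetOp H (R(phi) psi)`, continuity and compact support of
`ltr`, `lsum`, `iwL`, `regL`.

This file realises NO equation lemma of a definition of another module (definitions are unfolded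
through the `rfl` lemmas `rc..._apply_h131` below only).
-/

set_option autoImplicit false

open AutomorphicForm IsDedekindDomain NumberField MeasureTheory
open scoped ComplexConjugate

noncomputable section

namespace Fermat.Agent.LT.T7.H131

open Fermat.Agent.LT.H556 Fermat.Agent.LT.H556.A0 Fermat.Agent.LT.T7 Fermat.Agent.LT.T7.H893

attribute [local instance] Fermat.Agent.LT.T5.instMeasurableSpaceG

variable {K : Type} [Field K] [NumberField K]

/-! ## Definitional unfoldings -/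

theorem rcLtr_apply_h131 (b : G K) (φ : G K → ℂ) (y : G K) : ltr b φ y = φ (b⁻¹ * y) := rfl

theorem rcLsum_apply_h131 (H : Finset (G K)) (φ : G K → ℂ) (y : G K) :
    lsum H φ y = ∑ h ∈ H, ltr h φ y := rfl

theorem rcIwL_apply_h131 (w : HeightOneSpectrum (𝓞 K)) (H : Finset (G K)) (φ : G K → ℂ)
    (y : G K) :
    iwL w H φ y = ((Real.sqrt (Ideal.absNorm w.asIdeal : ℝ) : ℝ) : ℂ)⁻¹ * lsum H φ y := rfl

theorem rcRegL_eq_h131 (w : HeightOneSpectrum (𝓞 K)) (z : G K) (H : Finset (G K)) (k : ℤ)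
    (m : ℕ) (φ : G K → ℂ) : regL w z H k m φ = ltr (z ^ k) ((iwL w H)^[m] φ) := rfl

theorem rcRconv_apply_h131 (μ : Measure (G K)) (φ e : G K → ℂ) (x : G K) :
    T5.Rconv μ φ e x = ∫ y, φ y * e (x * y) ∂μ := rfl

theorem rcCosetOp_apply_h131 (H : Finset (G K)) (ψ : G K → ℂ) (x : G K) :
    cosetOp H ψ x = ∑ h ∈ H, ψ (x * h) := rfl

theorem rcIwOp_apply_h131 (w : HeightOneSpectrum (𝓞 K)) (H : Finset (G K)) (ψ : G K → ℂ)
    (x : G K) :
    iwOp w H ψ x = ((Real.sqrt (Ideal.absNorm w.asIdeal : ℝ) : ℝ) : ℂ)⁻¹ * ∑ h ∈ H, ψ (x * h) :=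
  rfl

theorem rcShiftOp_apply_h131 (z : G K) (k : ℤ) (ψ : G K → ℂ) (x : G K) :
    shiftOp z k ψ x = ψ (x * z ^ k) := rfl

/-! ## Regularity of the operations -/

theorem rcContinuous_ltr_h131 (b : G K) {φ : G K → ℂ} (hφ : Continuous φ) :
    Continuous (ltr b φ) :=
  hφ.comp (continuous_const_mul b⁻¹)

theorem rcCompact_ltr_h131 (b : G K) {φ : G K → ℂ} (hφ : HasCompactSupport φ) :
    HasCompactSupport (ltr b φ) :=
  hφ.comp_homeomorph (Homeomorph.mulLeft b⁻¹)

theorem rcContinuous_lsum_h131 (H : Finset (G K)) {φ : G K → ℂ} (hφ : Continuous φ) :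
    Continuous (lsum H φ) := by
  have h : lsum H φ = fun y => ∑ h ∈ H, ltr h φ y := rfl
  rw [h]
  exact continuous_finsetSum _ fun h _ => rcContinuous_ltr_h131 h hφ

theorem rcCompact_lsum_h131 (H : Finset (G K)) {φ : G K → ℂ}
    (hφ : HasCompactSupport φ) : HasCompactSupport (lsum H φ) := by
  classical
  have h : ∀ H : Finset (G K), lsum H φ = ∑ h ∈ H, ltr h φ := by
    intro H
    funext y
    rw [rcLsum_apply_h131, Finset.sum_apply]
  rw [h]
  induction H using Finset.induction_on with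
  | empty =>
    rw [Finset.sum_empty]
    exact HasCompactSupport.zero
  | insert a s ha ih =>
    rw [Finset.sum_insert ha]
    exact (rcCompact_ltr_h131 a hφ).add ih

theorem rcIwL_eq_h131 (w : HeightOneSpectrum (𝓞 K)) (H : Finset (G K)) (φ : G K → ℂ) :
    iwL w H φ = fun y => ((Real.sqrt (Ideal.absNorm w.asIdeal : ℝ) : ℝ) : ℂ)⁻¹ * lsum H φ y :=
  rfl

theorem rcContinuous_iwL_h131 (w : HeightOneSpectrum (𝓞 K)) (H : Finset (G K)) {φ : G K → ℂ}
    (hφ : Continuous φ) : Continuous (iwL w H φ) := by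
  rw [rcIwL_eq_h131]
  exact continuous_const.mul (rcContinuous_lsum_h131 H hφ)

theorem rcCompact_iwL_h131 (w : HeightOneSpectrum (𝓞 K)) (H : Finset (G K))
    {φ : G K → ℂ} (hφ : HasCompactSupport φ) : HasCompactSupport (iwL w H φ) := by
  rw [rcIwL_eq_h131]
  exact (rcCompact_lsum_h131 H hφ).mul_left

theorem rcContinuous_iter_h131 (w : HeightOneSpectrum (𝓞 K)) (H : Finset (G K))
    {φ : G K → ℂ} (hφ : Continuous φ) (m : ℕ) : Continuous ((iwL w H)^[m] φ) := by
  induction m with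
  | zero => exact hφ
  | succ n ih =>
    rw [Function.iterate_succ_apply']
    exact rcContinuous_iwL_h131 w H ih

theorem rcCompact_iter_h131 (w : HeightOneSpectrum (𝓞 K)) (H : Finset (G K))
    {φ : G K → ℂ} (hφ : HasCompactSupport φ) (m : ℕ) :
    HasCompactSupport ((iwL w H)^[m] φ) := by
  induction m with
  | zero => exact hφ
  | succ n ih =>
    rw [Function.iterate_succ_apply']
    exact rcCompact_iwL_h131 w H ih

theorem rcContinuous_regL_h131 (w : HeightOneSpectrum (𝓞 K)) (z : G K) (H : Finset (G K))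
    (k : ℤ) (m : ℕ) {φ : G K → ℂ} (hφ : Continuous φ) : Continuous (regL w z H k m φ) :=
  rcContinuous_ltr_h131 _ (rcContinuous_iter_h131 w H hφ m)

theorem rcCompact_regL_h131 (w : HeightOneSpectrum (𝓞 K)) (z : G K)
    (H : Finset (G K)) (k : ℤ) (m : ℕ) {φ : G K → ℂ} (hφ : HasCompactSupport φ) :
    HasCompactSupport (regL w z H k m φ) :=
  rcCompact_ltr_h131 _ (rcCompact_iter_h131 w H hφ m)

theorem rcRegL_zero_h131 (w : HeightOneSpectrum (𝓞 K)) (z : G K) (H : Finset (G K))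
    (φ : G K → ℂ) : regL w z H 0 0 φ = φ := by
  funext y
  rw [rcRegL_eq_h131, rcLtr_apply_h131, zpow_zero, inv_one, one_mul]
  rfl

/-! ## The operators of the translates -/

variable {μ : Measure (G K)} {F : Set (G K)}

/-- `R(ltr b φ) ψ = (R(φ) ψ)(· b)`. -/
theorem rcLtr_h131 (hF : T5.IsFrame μ F) (b : G K) (φ ψ : G K → ℂ) (x : G K) :
    T5.Rconv μ (ltr b φ) ψ x = T5.Rconv μ φ ψ (x * b) := by
  have : BorelSpace (G K) := T5.H277.borelSpaceG277
  have := hF.haar
  rw [rcRconv_apply_h131, rcRconv_apply_h131]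
  have h := integral_mul_left_eq_self (μ := μ) (fun y => φ (b⁻¹ * y) * ψ (x * y)) b
  have e1 : (fun y => ltr b φ y * ψ (x * y)) = fun y => φ (b⁻¹ * y) * ψ (x * y) := rfl
  rw [e1, ← h]
  congr 1
  funext y
  rw [inv_mul_cancel_left, mul_assoc]

theorem rcIntegrable_h131 (hF : T5.IsFrame μ F) {φ ψ : G K → ℂ} (hφc : Continuous φ)
    (hφs : HasCompactSupport φ) (hψ : Continuous ψ) (x : G K) :
    Integrable (fun y => φ y * ψ (x * y)) μ := by
  have : BorelSpace (G K) := T5.H277.borelSpaceG277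
  have := hF.haar
  have hc : Continuous fun y => φ y * ψ (x * y) :=
    hφc.mul (hψ.comp (continuous_const_mul x))
  exact hc.integrable_of_hasCompactSupport hφs.mul_right

/-- `R(lsum H φ) ψ = cosetOp H (R(φ) ψ)`. -/
theorem rcLsum_h131 (hF : T5.IsFrame μ F) (H : Finset (G K)) {φ ψ : G K → ℂ}
    (hφc : Continuous φ) (hφs : HasCompactSupport φ) (hψ : Continuous ψ) (x : G K) :
    T5.Rconv μ (lsum H φ) ψ x = cosetOp H (T5.Rconv μ φ ψ) x := by
  have : BorelSpace (G K) := T5.H277.borelSpaceG277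
  have := hF.haar
  rw [rcCosetOp_apply_h131]
  have h1 : ∀ h ∈ H, T5.Rconv μ φ ψ (x * h) = ∫ y, ltr h φ y * ψ (x * y) ∂μ := by
    intro h _
    rw [← rcLtr_h131 hF, rcRconv_apply_h131]
  rw [Finset.sum_congr rfl h1, rcRconv_apply_h131, ← integral_finsetSum]
  · congr 1
    funext y
    rw [rcLsum_apply_h131, Finset.sum_mul]
  · intro h _
    exact rcIntegrable_h131 hF (rcContinuous_ltr_h131 h hφc) (rcCompact_ltr_h131 h hφs) hψ x

/-- `R(iwL w H φ) ψ = iwOp w H (R(φ) ψ)`. -/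
theorem rcIwL_h131 (hF : T5.IsFrame μ F) (w : HeightOneSpectrum (𝓞 K)) (H : Finset (G K))
    {φ ψ : G K → ℂ} (hφc : Continuous φ) (hφs : HasCompactSupport φ) (hψ : Continuous ψ)
    (x : G K) :
    T5.Rconv μ (iwL w H φ) ψ x = iwOp w H (T5.Rconv μ φ ψ) x := by
  have h := rcLsum_h131 hF H hφc hφs hψ x
  rw [rcCosetOp_apply_h131] at h
  rw [rcIwOp_apply_h131, ← h, rcRconv_apply_h131, rcRconv_apply_h131, ← integral_const_mul]
  congr 1
  funext y
  rw [rcIwL_apply_h131]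
  ring

theorem rcIter_h131 (hF : T5.IsFrame μ F) (w : HeightOneSpectrum (𝓞 K))
    (H : Finset (G K)) {φ ψ : G K → ℂ} (hφc : Continuous φ) (hφs : HasCompactSupport φ)
    (hψ : Continuous ψ) (m : ℕ) :
    T5.Rconv μ ((iwL w H)^[m] φ) ψ = (iwOp w H)^[m] (T5.Rconv μ φ ψ) := by
  induction m with
  | zero => rfl
  | succ n ih =>
    rw [Function.iterate_succ_apply', Function.iterate_succ_apply', ← ih]
    funext x
    exact rcIwL_h131 hF w H (rcContinuous_iter_h131 w H hφc n)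
      (rcCompact_iter_h131 w H hφs n) hψ x

/-- `R(regL w z H k m φ) ψ = shiftOp z k ((iwOp w H)^[m] (R(φ) ψ))`. -/
theorem rcRegL_h131 (hF : T5.IsFrame μ F) (w : HeightOneSpectrum (𝓞 K)) (z : G K)
    (H : Finset (G K)) (k : ℤ) (m : ℕ) {φ ψ : G K → ℂ} (hφc : Continuous φ)
    (hφs : HasCompactSupport φ) (hψ : Continuous ψ) :
    T5.Rconv μ (regL w z H k m φ) ψ = shiftOp z k ((iwOp w H)^[m] (T5.Rconv μ φ ψ)) := by
  funext x
  rw [rcRegL_eq_h131, rcLtr_h131 hF, rcIter_h131 hF w H hφc hφs hψ]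
  rfl

theorem rcIwOp_zero_h131 (w : HeightOneSpectrum (𝓞 K)) (H : Finset (G K)) :
    iwOp w H (0 : G K → ℂ) = 0 := by
  funext x
  rw [rcIwOp_apply_h131]
  have h : ∑ h ∈ H, (0 : G K → ℂ) (x * h) = 0 := Finset.sum_eq_zero fun _ _ => rfl
  rw [h, mul_zero]
  rfl

theorem rcIwOp_iter_zero_h131 (w : HeightOneSpectrum (𝓞 K)) (H : Finset (G K)) (m : ℕ) :
    (iwOp w H)^[m] (0 : G K → ℂ) = 0 := by
  induction m with
  | zero => rfl
  | succ n ih => rw [Function.iterate_succ_apply', ih, rcIwOp_zero_h131]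

theorem rcShiftOp_zero_h131 (z : G K) (k : ℤ) : shiftOp z k (0 : G K → ℂ) = 0 := rfl

theorem rcCosetOp_zero_h131 (H : Finset (G K)) : cosetOp H (0 : G K → ℂ) = 0 := by
  funext x
  rw [rcCosetOp_apply_h131]
  exact Finset.sum_eq_zero fun _ _ => rfl

theorem rcRconv_zero_h131 (φ : G K → ℂ) : T5.Rconv μ φ (0 : G K → ℂ) = 0 := by
  funext x
  rw [rcRconv_apply_h131]
  have h : (fun y => φ y * (0 : G K → ℂ) (x * y)) = fun _ => (0 : ℂ) := by
    funext y
    exact mul_zero _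
  rw [h, integral_zero]
  rfl

theorem rcContinuous_iwOp_h131 (w : HeightOneSpectrum (𝓞 K)) (H : Finset (G K))
    {ψ : G K → ℂ} (hψ : Continuous ψ) : Continuous (iwOp w H ψ) := by
  have h : iwOp w H ψ
      = fun x => ((Real.sqrt (Ideal.absNorm w.asIdeal : ℝ) : ℝ) : ℂ)⁻¹ * ∑ h ∈ H, ψ (x * h) :=
    rfl
  rw [h]
  exact continuous_const.mul
    (continuous_finsetSum _ fun h _ => hψ.comp (continuous_mul_const h))

theorem rcContinuous_shiftOp_h131 (z : G K) (k : ℤ) {ψ : G K → ℂ} (hψ : Continuous ψ) :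
    Continuous (shiftOp z k ψ) :=
  hψ.comp (continuous_mul_const (z ^ k))

end Fermat.Agent.LT.T7.H131
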