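import Mathlib
import Fermat.Agent.LT.T7.H732.SupplyQFamSpec
import Fermat.Agent.LT.T7.H131.RconvOps

/-
LT tower T7, node T7.L2Q.1.F `FamQC962` (cut of helper732), leaves F4 `KillUpQC732`,
F6 `ClassDownQC732`, F7 `CommDownQC732`, F8 `KillDownQC732` (registry id 2321 = F8; F4, F6, F7
delivered with it) -- helper131, OFF-MAIN.

Spec: helper732@d2eb0c98b `Fermat/Agent/LT/T7/H732/SupplyQFamSpec.lean` (sha256 7e4f04b4...),
closure vendored byte-identical; `Rconv_Rconv277` from `LT/T5/H277/Coeff.lean` (helper277);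
general lemmas `LT/T7/H131/RconvOps.lean`.

Results: `killUpQC_h131 : KillUpQC732 F`, `classDownQC_h131 : ClassDownQC732 F`,
`commDownQC_h131 : CommDownQC732 F`, `killDownQC_h131 : KillDownQC732 F`.

This file realises NO equation lemma of a definition of another module.
-/

set_option autoImplicit false

open AutomorphicForm IsDedekindDomain NumberField MeasureTheory
open scoped ComplexConjugate

noncomputable section

namespace Fermat.Agent.LT.T7.H131

open Fermat.Agent.LT.H556 Fermat.Agent.LT.H556.A0 Fermat.Agent.LT.T7 Fermat.Agent.LT.T7.L2Q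
  Fermat.Agent.LT.T7.H893 Fermat.Agent.LT.T7.H962 Fermat.Agent.LT.T7.H732

attribute [local instance] Fermat.Agent.LT.T5.instMeasurableSpaceG

variable {F : Type} [Field F] [NumberField F]

theorem qDown_eq_h131 (B : L2QBase962 F) (E : L2QPre732 F) (n : QWt) (X : List (Gen F))
    (k : ℤ) (m : ℕ) :
    E.down B n X k m = T5.conv B.R.μ (E.F₁ n X) (regL B.u E.z E.H k m (E.f₂ n)) := rfl

theorem qUp_eq_h131 (B : L2QBase962 F) (E : L2QPre732 F) (X : List (Gen F)) (k : ℤ) (m : ℕ) :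
    E.up B X k m
      = T5.conv B.R'.μ (E.Φ₁ X) (lsum E.Hg (regL (B.o 0) E.z' E.H' k m E.φ₂)) := rfl

/-- `R(f n [] 0 0) = R(F₁ n []) R(f₂ n)`. -/
theorem qRconv_down_nil_h131 {Φ : HeckeEigensystem F ℂ} {B : L2QBase962 F}
    (hB : IsL2QBase962 Φ B) {g : G F} {E : L2QPre732 F} (hE : IsL2QPre732 Φ B g E) (n : QWt)
    {χ : G ℚ → ℂ} (hχ : Continuous χ) :
    T5.Rconv B.R.μ (E.down B n [] 0 0) χ
      = T5.Rconv B.R.μ (E.F₁ n []) (T5.Rconv B.R.μ (E.f₂ n) χ) := by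
  have hF := hB.frame.frame
  have h1 := hE.dn1_test n [] (fun x hx => absurd hx List.not_mem_nil)
  have h2 := hE.dn2_test n
  funext x
  rw [qDown_eq_h131, rcRegL_zero_h131,
    ← T5.H277.Rconv_Rconv277 hF h1.cont h1.supp h2.cont h2.supp hχ]

/-- **T7.L2Q.1.F6** `ClassDownQC732`. -/
theorem classDownQC_h131 : ClassDownQC732 F := by
  intro Φ B hB g _ E hE n ψ c hψ
  rw [qRconv_down_nil_h131 hB hE n hψ.inv.cusp.cont]
  exact hE.dn1_class n _ c (hE.dn2_class n ψ c hψ)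

/-- **T7.L2Q.1.F7** `CommDownQC732`. -/
theorem commDownQC_h131 : CommDownQC732 F := by
  intro Φ B hB g _ E hE n ψ hψ H z hH hz
  have hc := hψ.cusp.cont
  have hw := hE.dn2_wfn n ψ hψ
  constructor
  · intro x
    rw [qRconv_down_nil_h131 hB hE n (rcContinuous_iwOp_h131 B.u H hc),
      qRconv_down_nil_h131 hB hE n hc]
    have e1 : T5.Rconv B.R.μ (E.f₂ n) (iwOp B.u H ψ)
        = iwOp B.u H (T5.Rconv B.R.μ (E.f₂ n) ψ) :=
      funext (hE.dn2_comm n ψ hψ H z hH hz).1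
    rw [e1]
    exact (hE.dn1_comm n _ hw H z hH hz).1 x
  · intro k x
    rw [qRconv_down_nil_h131 hB hE n (rcContinuous_shiftOp_h131 z k hc),
      qRconv_down_nil_h131 hB hE n hc]
    have e1 : T5.Rconv B.R.μ (E.f₂ n) (shiftOp z k ψ)
        = shiftOp z k (T5.Rconv B.R.μ (E.f₂ n) ψ) :=
      funext ((hE.dn2_comm n ψ hψ H z hH hz).2 k)
    rw [e1]
    exact (hE.dn1_comm n _ hw H z hH hz).2 k x

/-- **T7.L2Q.1.F8** `KillDownQC732`. -/
theorem killDownQC_h131 : KillDownQC732 F := by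
  intro Φ B hB g _ E hE n X k m hX ψ hψ hperp x
  have hF := hB.frame.frame
  have h1 := hE.dn1_test n X hX
  have h2 := hE.dn2_test n
  have h0 : T5.Rconv B.R.μ (E.f₂ n) ψ = 0 := funext (hE.dn2_kill n ψ hψ hperp)
  rw [qDown_eq_h131, ← T5.H277.Rconv_Rconv277 hF h1.cont h1.supp
    (rcContinuous_regL_h131 B.u E.z E.H k m h2.cont)
    (rcCompact_regL_h131 B.u E.z E.H k m h2.supp) hψ.cont,
    rcRegL_h131 hF B.u E.z E.H k m h2.cont h2.supp hψ.cont, h0, rcIwOp_iter_zero_h131,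
    rcShiftOp_zero_h131, rcRconv_zero_h131]
  rfl

/-- **T7.L2Q.1.F4** `KillUpQC732`. -/
theorem killUpQC_h131 : KillUpQC732 F := by
  intro Φ B hB g _ E hE X k m hX ψ hψ hperp x
  have hF := hB.frame'.frame
  have h1 := hE.up1_test X hX
  have h2 := hE.up2_test
  have h0 : T5.Rconv B.R'.μ E.φ₂ ψ = 0 := funext (hE.up2_kill ψ hψ hperp)
  have hrc := rcContinuous_regL_h131 (B.o 0) E.z' E.H' k m h2.cont
  have hrs := rcCompact_regL_h131 (B.o 0) E.z' E.H' k m h2.supp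
  have e1 : T5.Rconv B.R'.μ (lsum E.Hg (regL (B.o 0) E.z' E.H' k m E.φ₂)) ψ = 0 := by
    funext y
    rw [rcLsum_h131 hF E.Hg hrc hrs hψ.cont,
      rcRegL_h131 hF (B.o 0) E.z' E.H' k m h2.cont h2.supp hψ.cont, h0,
      rcIwOp_iter_zero_h131, rcShiftOp_zero_h131, rcCosetOp_zero_h131]
  rw [qUp_eq_h131, ← T5.H277.Rconv_Rconv277 hF h1.cont h1.supp (rcContinuous_lsum_h131 E.Hg hrc)
    (rcCompact_lsum_h131 E.Hg hrs) hψ.cont, e1, rcRconv_zero_h131]
  rfl

end Fermat.Agent.LT.T7.H131
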